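import Fermat.Agent.Glue.Frey

/-!
# The assembly from squarefree levels

Modularity of semistable curves from a squarefree residual level at `3` and lifting from squarefree
levels (3–5 switch), and from it the top statements, up to Fermat's Last Theorem.
-/

open WeierstrassCurve WeierstrassCurve.Affine.Point
open scoped WeierstrassCurve.Affine

namespace Fermat.Agent.Glue

/-- A squarefree level of residual modularity at `3`. -/
def ResidualThreeSquarefree : Prop :=
  ∀ W : WeierstrassCurve ℤ, W.Δ ≠ 0 → W.IsSemistableModel → W.ModRepIsIrreducible 3 →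
    ∃ M : ℕ, 0 < M ∧ Squarefree M ∧ W.IsResiduallyModularOfLevel 3 M

/-- Modularity lifting at `3` and `5` from squarefree levels. -/
def LiftingSquarefree : Prop :=
  ∀ p : ℕ, p = 3 ∨ p = 5 → ∀ W : WeierstrassCurve ℤ, W.Δ ≠ 0 → W.IsSemistableModel →
    W.ModRepIsIrreducible p → ∀ (M₀ : ℕ) [NeZero M₀], Squarefree M₀ →
      W.IsResiduallyModularOfLevel p M₀ → Mlc1IsModularModelOfExactConductorLevel W

/-- Every semistable curve is modular of level its conductor. -/
theorem exactConductor_squarefree (hres3 : ResidualThreeSquarefree) (hlift : LiftingSquarefree)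
    (W : WeierstrassCurve ℤ) (hΔ : W.Δ ≠ 0) (hW : W.IsSemistableModel) :
    Mlc1IsModularModelOfExactConductorLevel W := by
  have key3 : ∀ V : WeierstrassCurve ℤ, V.Δ ≠ 0 → V.IsSemistableModel →
      V.ModRepIsIrreducible 3 → Mlc1IsModularModelOfExactConductorLevel V := by
    intro V hΔV hV h3
    obtain ⟨M₀, hpos, hsq, hres⟩ := hres3 V hΔV hV h3
    have : NeZero M₀ := ⟨hpos.ne'⟩
    exact hlift 3 (Or.inl rfl) V hΔV hV h3 M₀ hsq hres
  rcases Fermat.Agent.S51.result W hΔ hW with h3 | h5
  · exact key3 W hΔ hW h3
  · obtain ⟨W', hΔ', hW', h3', hcong⟩ := Fermat.Agent.S52.result W hΔ hW h5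
    obtain ⟨N, hN, hsq, hsupp, hmod⟩ := key3 W' hΔ' hW' h3'
    have : NeZero N := ⟨hN.ne'⟩
    exact hlift 5 (Or.inr rfl) W hΔ hW h5 N hsq (residual_five_of_switch W W' hcong hsupp hmod)

/-- Modularity lifting holds trivially when every semistable curve is modular of its conductor
level. -/
theorem liftingThreeFive_of_exact
    (h : ∀ W : WeierstrassCurve ℤ, W.Δ ≠ 0 → W.IsSemistableModel →
      Mlc1IsModularModelOfExactConductorLevel W) : LiftingThreeFive :=
  fun _ _ W hΔ hW _ _ _ _ _ _ => h W hΔ hW

/-- Modularity lifting at `3` and `5` (S59) from the squarefree inputs. -/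
theorem liftingThreeFive_of_squarefree (hres3 : ResidualThreeSquarefree)
    (hlift : LiftingSquarefree) : LiftingThreeFive :=
  liftingThreeFive_of_exact (exactConductor_squarefree hres3 hlift)

/-- Semistable curves are modular (S60), from the squarefree inputs. -/
theorem isModular_of_squarefree (hres3 : ResidualThreeSquarefree) (hlift : LiftingSquarefree)
    (W : WeierstrassCurve ℤ) (hΔ : W.Δ ≠ 0) (hW : W.IsSemistableModel) :
    (W.map (Int.castRingHom ℚ)).IsModular := by
  obtain ⟨N, hN, -, -, hmod⟩ := exactConductor_squarefree hres3 hlift W hΔ hW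
  exact ⟨W, ⟨1, one_smul _ _⟩, N, hN, hmod⟩

/-- The Frey curve is modular (S04), from the squarefree inputs. -/
theorem freyIsModular_of_squarefree (hres3 : ResidualThreeSquarefree) (hlift : LiftingSquarefree)
    (P : FreyPackage) : P.freyCurve.IsModular :=
  freyIsModular_of_exact (exactConductor_squarefree hres3 hlift) P

/-- The Frey representation is modular of a conductor level (S06), from the squarefree inputs. -/
theorem freyModularRep_of_squarefree (hres3 : ResidualThreeSquarefree) (hlift : LiftingSquarefree)
    (P : FreyPackage) : ∃ N : ℕ, P.IsConductorLevel N ∧ P.ModularRepOfLevel N :=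
  freyModularRep_of_exact (exactConductor_squarefree hres3 hlift) P

/-- There is no Frey package (S03), from the squarefree inputs, level lowering and Mazur. -/
theorem noFrey_of_squarefree (hres3 : ResidualThreeSquarefree) (hlift : LiftingSquarefree)
    (hMazur : ∀ P : FreyPackage,
      GaloisRepIsIrreducible (K := AlgebraicClosure ℚ) ℚ P.freyCurve P.p)
    (haway : LowerAway) (hatP : LowerAtP) (P : FreyPackage) : False :=
  noFrey hMazur (freyModularRep_of_squarefree hres3 hlift) haway hatP P

/-- A nonzero form of level two (S45), from the squarefree inputs and level lowering. -/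
theorem exists_form_two_of_squarefree (hres3 : ResidualThreeSquarefree) (hlift : LiftingSquarefree)
    (haway : LowerAway) (hatP : LowerAtP) (P : FreyPackage)
    (hirr : GaloisRepIsIrreducible (K := AlgebraicClosure ℚ) ℚ P.freyCurve P.p) :
    ∃ f : CuspForm (CongruenceSubgroup.Gamma0 2) 2, f ≠ 0 :=
  exists_form_two_of_lowering (freyModularRep_of_squarefree hres3 hlift) haway hatP P hirr

/-- Fermat's Last Theorem (S01), from the squarefree inputs, level lowering and Mazur. -/
theorem flt_of_squarefree (hres3 : ResidualThreeSquarefree) (hlift : LiftingSquarefree)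
    (hMazur : ∀ P : FreyPackage,
      GaloisRepIsIrreducible (K := AlgebraicClosure ℚ) ℚ P.freyCurve P.p)
    (haway : LowerAway) (hatP : LowerAtP) (n : ℕ) (hn : 3 ≤ n) (a b c : ℕ)
    (ha : 0 < a) (hb : 0 < b) (hc : 0 < c) : a ^ n + b ^ n ≠ c ^ n :=
  flt_of_noFrey (noFrey_of_squarefree hres3 hlift hMazur haway hatP) n hn a b c ha hb hc

end Fermat.Agent.Glue
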