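import Fermat.Prelude.Def_FLTPrelim_Ramification
import Fermat.Prelude.Def_WeierstrassCurve_Mlc1RowStatement
import Fermat.Agent.S51
import Fermat.Agent.S52

/-!
# Inputs of modularity of semistable curves

Shapes of the hypotheses of the modularity argument, and residual modularity at `5` of a switched
curve.
-/

open WeierstrassCurve
open scoped WeierstrassCurve.Affine

namespace Fermat.Agent.Glue

/-- No nonzero `3`-torsion point is fixed by inertia at `3`. -/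
def NoInertiaFixedThree (W : WeierstrassCurve ℤ) : Prop :=
  ∀ A : ValuationSubring (AlgebraicClosure ℚ), A.LiesOverPrime 3 →
    ∀ x : Submodule.torsionBy ℤ
        ((W.map (Int.castRingHom ℚ))⁄(AlgebraicClosure ℚ)).Point (3 : ℕ),
      (∀ σ ∈ A.inertiaSubgroupIn ℚ, σ • x = x) → x = 0

/-- Modularity lifting at `3` and `5`, from residual levels which are cube free and not divisible
by `p ^ 2`, to the conductor level (statement S59). -/
def LiftingThreeFive : Prop :=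
  ∀ p : ℕ, p = 3 ∨ p = 5 → ∀ W : WeierstrassCurve ℤ, W.Δ ≠ 0 → W.IsSemistableModel →
    W.ModRepIsIrreducible p → ∀ (M₀ : ℕ) [NeZero M₀], W.IsResiduallyModularOfLevel p M₀ →
      ¬ p ^ 2 ∣ M₀ → (∀ q : ℕ, q.Prime → q ≠ p → ¬ q ^ 3 ∣ M₀) →
      Mlc1IsModularModelOfExactConductorLevel W

/-- A form of exact conductor level for `W'` is a residual form modulo `5` for a switched curve. -/
theorem residual_five_of_switch (W W' : WeierstrassCurve ℤ)
    (hcong : ∀ ℓ : ℕ, ℓ.Prime → W.IsGoodPrimeFor ℓ → W'.IsGoodPrimeFor ℓ → ℓ ≠ 5 →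
      (5 : ℤ) ∣ (W'.apOfModel ℓ - W.apOfModel ℓ))
    {N : ℕ} (hsupp : ∀ q : ℕ, q.Prime → (q ∣ N ↔ (q : ℤ) ∣ W'.Δ))
    (hmod : W'.IsModularModelOfLevel N) : W.IsResiduallyModularOfLevel 5 N := by
  obtain ⟨f, hf, hcoeff⟩ := hmod
  obtain ⟨𝔪, h𝔪, h5⟩ :=
    FLTPrelim.exists_maximalIdeal_natCast_prime_mem (p := 5) (by norm_num)
  refine ⟨f, 𝔪, hf, h𝔪, h5, fun ℓ hℓ hgood hℓN hℓ5 => ⟨(W'.apOfModel ℓ : ℤ), ?_, ?_⟩⟩
  all_goals have hgood' : W'.IsGoodPrimeFor ℓ := fun hd => hℓN ((hsupp ℓ hℓ).2 hd)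
  · rw [hcoeff ℓ hℓ hgood' hℓN]
    simp
  · obtain ⟨z, hz⟩ := hcong ℓ hℓ hgood hgood' hℓ5
    rw [← Int.cast_sub, hz, Int.cast_mul]
    exact 𝔪.mul_mem_right _ (by simpa using h5)

end Fermat.Agent.Glue
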