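import Mathlib.NumberTheory.FLT.Four
import Mathlib.NumberTheory.FLT.Three
import Fermat.Prelude.Def_FLTPrelim_ModularRep
import Fermat.Prelude.Def_FreyPackage_IsConductorLevel
import Fermat.Agent.S02
import Fermat.Agent.S05
import Fermat.Agent.S07
import Fermat.Agent.S08

/-!
# Top of the proof

Fermat's Last Theorem from Mazur's irreducibility theorem, modularity at the conductor and level
lowering, which are hypotheses here: iterated lowering leads to a form of level dividing two, which
cannot exist.
-/

open WeierstrassCurve WeierstrassCurve.Affine.Point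

namespace Fermat.Agent.Glue

/-- Ribet's lowering: a prime `q ≠ 2, p` at which the representation is unramified can be removed
from the level (statement S43). -/
def LowerAway : Prop :=
  ∀ (P : FreyPackage) {N q : ℕ}, P.IsConductorLevel N → q.Prime → q ≠ 2 → q ≠ P.p → q ∣ N →
    GaloisRepIsIrreducible (K := AlgebraicClosure ℚ) ℚ P.freyCurve P.p →
    P.ModularRepOfLevel N → P.GaloisRepUnramifiedAt q →
    ∃ M : ℕ, M ∣ N ∧ ¬ q ∣ M ∧ P.ModularRepOfLevel M

/-- Mazur's principle: the prime `p` can be removed from the level (statement S44). -/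
def LowerAtP : Prop :=
  ∀ (P : FreyPackage) {N : ℕ}, P.IsConductorLevel N → P.p ∣ N →
    GaloisRepIsIrreducible (K := AlgebraicClosure ℚ) ℚ P.freyCurve P.p →
    P.ModularRepOfLevel N → ∃ M : ℕ, M ∣ N ∧ ¬ P.p ∣ M ∧ P.ModularRepOfLevel M

/-- Repeated level lowering reaches a level dividing `2`. -/
theorem exists_level_dvd_two (haway : LowerAway) (hatP : LowerAtP) (P : FreyPackage)
    (hirr : GaloisRepIsIrreducible (K := AlgebraicClosure ℚ) ℚ P.freyCurve P.p) :
    ∀ N : ℕ, P.IsConductorLevel N → P.ModularRepOfLevel N →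
      ∃ M : ℕ, M ∣ 2 ∧ P.ModularRepOfLevel M := by
  intro N
  induction N using Nat.strong_induction_on with
  | _ N ih =>
    intro hcond hmod
    by_cases hq : ∃ q : ℕ, q.Prime ∧ q ≠ 2 ∧ q ∣ N
    · obtain ⟨q, hq, hq2, hqN⟩ := hq
      have key : ∃ M : ℕ, M ∣ N ∧ ¬ q ∣ M ∧ P.ModularRepOfLevel M := by
        by_cases hqp : q = P.p
        · subst hqp
          exact hatP P hcond hqN hirr hmod
        · exact haway P hcond hq hq2 hqp hqN hirr hmod (Fermat.Agent.S05.result P hq hq2 hqp)
      obtain ⟨M, hMN, hqM, hM⟩ := key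
      have hMpos : 0 < M := Nat.pos_of_dvd_of_pos hMN hcond.pos
      have hlt : M < N :=
        lt_of_le_of_ne (Nat.le_of_dvd hcond.pos hMN) (fun h => hqM (h ▸ hqN))
      exact ih M hlt (hcond.of_dvd hMN hMpos) hM
    · push Not at hq
      refine ⟨N, ?_, hmod⟩
      have hsub : N.primeFactors ⊆ {2} := fun q hq' => Finset.mem_singleton.2 <| by_contra
        fun hne => hq q (Nat.prime_of_mem_primeFactors hq') hne (Nat.dvd_of_mem_primeFactors hq')
      rw [← Nat.prod_primeFactors_of_squarefree hcond.squarefree]
      simpa using Finset.prod_dvd_prod_of_subset _ _ (fun q : ℕ => q) hsub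

/-- A nonzero cusp form of weight two and level two (S45), from modularity of the Frey
representation at some conductor level and level lowering. -/
theorem exists_form_two_of_lowering
    (hmodular : ∀ P : FreyPackage, ∃ N : ℕ, P.IsConductorLevel N ∧ P.ModularRepOfLevel N)
    (haway : LowerAway) (hatP : LowerAtP) (P : FreyPackage)
    (hirr : GaloisRepIsIrreducible (K := AlgebraicClosure ℚ) ℚ P.freyCurve P.p) :
    ∃ f : CuspForm (CongruenceSubgroup.Gamma0 2) 2, f ≠ 0 := by
  obtain ⟨N, hN, hmod⟩ := hmodular P
  obtain ⟨M, hM, f, _, _, hf, -⟩ := exists_level_dvd_two haway hatP P hirr N hN hmod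
  rcases (Nat.dvd_prime Nat.prime_two).1 hM with rfl | rfl
  · exact absurd (Fermat.Agent.S08.result f) hf.ne_zero
  · exact ⟨f, hf.ne_zero⟩

/-- There is no Frey package, given Mazur, modularity and level lowering. -/
theorem noFrey
    (hMazur : ∀ P : FreyPackage,
      GaloisRepIsIrreducible (K := AlgebraicClosure ℚ) ℚ P.freyCurve P.p)
    (hmodular : ∀ P : FreyPackage, ∃ N : ℕ, P.IsConductorLevel N ∧ P.ModularRepOfLevel N)
    (haway : LowerAway) (hatP : LowerAtP) (P : FreyPackage) : False :=
  let ⟨f, hf⟩ := exists_form_two_of_lowering hmodular haway hatP P (hMazur P)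
  hf (Fermat.Agent.S07.result f)

/-- Fermat's Last Theorem from the absence of Frey packages. -/
theorem flt_of_noFrey (h : FreyPackage → False) (n : ℕ) (hn : 3 ≤ n) (a b c : ℕ)
    (ha : 0 < a) (hb : 0 < b) (hc : 0 < c) : a ^ n + b ^ n ≠ c ^ n := by
  have hall : FermatLastTheorem := by
    apply FermatLastTheorem.of_odd_primes
    intro p pp hodd
    rcases eq_or_ne p 3 with rfl | h3
    · exact fermatLastTheoremThree
    · have hp5 : 5 ≤ p := by
        have h2 : p ≠ 2 := by rintro rfl; exact absurd hodd (by decide)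
        have h4 : p ≠ 4 := by rintro rfl; exact absurd pp (by decide)
        have := pp.two_le
        omega
      rw [fermatLastTheoremFor_iff_int]
      intro a b c ha hb hc H
      exact (Fermat.Agent.S02.result a b c ha hb hc p pp hp5 H).elim h
  exact hall n hn a b c ha.ne' hb.ne' hc.ne'

end Fermat.Agent.Glue
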