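import Fermat.Agent.Frey.FreyModel
import Fermat.Agent.Glue.Semistable
import Fermat.Agent.Glue.Top

/-!
# Consequences for the Frey curve

Modularity of the Frey curve and of its mod `p` representation from modularity of semistable curves
at the conductor level.
-/

open WeierstrassCurve WeierstrassCurve.Affine.Point

namespace Fermat.Agent.Glue

/-- The Frey curve is modular (S04) if semistable curves are modular of conductor level. -/
theorem freyIsModular_of_exact
    (h : ∀ W : WeierstrassCurve ℤ, W.Δ ≠ 0 → W.IsSemistableModel →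
      Mlc1IsModularModelOfExactConductorLevel W) (P : FreyPackage) : P.freyCurve.IsModular := by
  obtain ⟨N, hN, -, -, hmod⟩ :=
    h P.freyCurveInt (Frey.freyCurveInt_Δ_ne_zero P) (Frey.freyCurveInt_isSemistable P)
  exact ⟨P.freyCurveInt, ⟨1, by rw [one_smul]; exact Frey.freyCurve_eq_map P⟩, N, hN, hmod⟩

/-- The mod `p` representation of the Frey curve is modular of a squarefree level supported on
`abc` (S06) if semistable curves are modular of conductor level. -/
theorem freyModularRep_of_exact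
    (h : ∀ W : WeierstrassCurve ℤ, W.Δ ≠ 0 → W.IsSemistableModel →
      Mlc1IsModularModelOfExactConductorLevel W) (P : FreyPackage) :
    ∃ N : ℕ, P.IsConductorLevel N ∧ P.ModularRepOfLevel N := by
  obtain ⟨N, hN, hsq, hsupp, f, hf, hcoeff⟩ :=
    h P.freyCurveInt (Frey.freyCurveInt_Δ_ne_zero P) (Frey.freyCurveInt_isSemistable P)
  refine ⟨N, ⟨hN, hsq, fun q hq hqN => ?_⟩, ?_⟩
  · have h1 : (q : ℤ) ∣ P.freyCurveInt.Δ := (hsupp q hq).1 hqN
    have hqI : Prime (q : ℤ) := Nat.prime_iff_prime_int.1 hq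
    have h2 : (q : ℤ) ∣ (P.a * P.b * P.c) ^ (P.p * 2) := by
      have e : (P.a * P.b * P.c) ^ (P.p * 2) = 256 * P.freyCurveInt.Δ := by
        rw [Frey.freyCurveInt_Δ]; ring
      exact e ▸ h1.mul_left _
    exact hqI.dvd_of_dvd_pow h2
  · obtain ⟨𝔪, h𝔪, hp⟩ := FLTPrelim.exists_maximalIdeal_natCast_prime_mem P.pp
    refine ⟨f, P.freyCurveInt, 𝔪, hf,
      ⟨1, by rw [one_smul]; exact Frey.freyCurve_eq_map P⟩, h𝔪, hp,
      fun ℓ hℓ hgood hℓN _ => ⟨(P.freyCurveInt.apOfModel ℓ : ℤ), ?_, ?_⟩⟩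
    · rw [hcoeff ℓ hℓ hgood hℓN]
      simp
    · simp

end Fermat.Agent.Glue
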